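import Fermat.Agent.S31Lib.Main
import Fermat.Agent.GAL.S29Anemic

/-!
# S31: the Hecke Galois representation is unramified outside `S`

The reduction of S31 to the inputs `GalInputs` of team GAL.
-/

set_option autoImplicit false

noncomputable section

open ModularCurve IsLocalRing Polynomial

namespace Fermat.Agent.S31Lib

local notation "Qbar" => AlgebraicClosure ℚ
local notation "Γℚ" => (AlgebraicClosure ℚ ≃ₐ[ℚ] AlgebraicClosure ℚ)

open FrobCompare (powTrace)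
open S30Wiring (AnemicAlg anemicIncl anemicEval)

/-! ## The main argument -/

section Final

open CuspForm HeckeGaloisRepDatum _root_.Fermat.Agent.Cyclotomic

variable {p : ℕ} {N : ℕ} [NeZero N] {S : Finset ℕ}
  {𝒪 : Type} [CommRing 𝒪] [IsDomain 𝒪] [IsDiscreteValuationRing 𝒪]
  [IsAdicComplete (IsLocalRing.maximalIdeal 𝒪) 𝒪]
  {θ : CuspForm.heckeAlgebra N 2 (↑S : Set ℕ) →+* IsLocalRing.ResidueField 𝒪}
  {T : Type} [CommRing T] [IsLocalRing T] [IsNoetherianRing T]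
  [IsAdicComplete (IsLocalRing.maximalIdeal T) T] [Algebra 𝒪 T] [IsLocalHom (algebraMap 𝒪 T)]
  [Module.Finite 𝒪 T] [Module.Free 𝒪 T]
  {J : Type} [AddCommGroup J] [Module HeckeAlg J] [DistribMulAction Γℚ J]
  [SMulCommClass Γℚ HeckeAlg J]

/-- The input about the Galois-Hecke module `J`. -/
structure Inp (p : ℕ) {N : ℕ} [NeZero N] {S : Finset ℕ}
    (hNS : ∀ q : ℕ, q.Prime → q ∣ N → q ∈ S) (J : Type) [AddCommGroup J] [Module HeckeAlg J]
    [DistribMulAction Γℚ J] [SMulCommClass Γℚ HeckeAlg J] : Prop where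
  smooth : ∀ x : J, ∃ L : IntermediateField ℚ Qbar, FiniteDimensional ℚ L ∧
    ∀ g : Γℚ, (∀ y ∈ L, g y = y) → g • x = x
  unramified : UnramifiedOutside (K := ℚ) (L := Qbar) N p J
  frobenius : FrobeniusQuadratic (K := ℚ) (L := Qbar) N p J
  finite_torsion : ∀ n : ℕ, {x : J | p ^ n • x = 0}.Finite
  ann : ∀ n : ℕ, ∃ m : ℕ, ∀ t : AnemicAlg S,
    (∀ x : J, p ^ m • x = 0 → anemicIncl S t • x = 0) →
      ∃ s : AnemicAlg S, anemicEval hNS t =
        (p : CuspForm.heckeAlgebra N 2 (↑S : Set ℕ)) ^ n * anemicEval hNS s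

theorem natCast_val_smul_eq {G : Type*} [AddCommGroup G] {M : ℕ} [NeZero M] (x : G)
    (hx : M • x = 0) (c : ℕ) : ((c : ZMod M)).val • x = c • x := by
  rw [ZMod.val_natCast]
  conv_rhs => rw [← Nat.div_add_mod c M, add_smul, mul_comm, mul_smul, hx, smul_zero, zero_add]

/-- For every `g`, a Hecke polynomial away from `S` which acts on `J[p^m]` as `g + χ(g) g⁻¹` and
computes `tr ρ(g)` modulo `𝔪^n`. -/
theorem exists_poly (hp : p.Prime) (hpS : p ∈ S)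
    (hNS : ∀ q : ℕ, q.Prime → q ∣ N → q ∈ S) (hJ : Inp p hNS J)
    (H : CuspForm.HeckeGaloisRepDatum N (↑S : Set ℕ) 𝒪 θ T) (m n : ℕ) [NeZero (p ^ m)] (g : Γℚ) :
    ∃ u : AnemicAlg S,
      (∀ x : J, p ^ m • x = 0 →
        anemicIncl S u • x = g • x + ((cyc (p ^ m) g : ZMod (p ^ m))).val • g⁻¹ • x) ∧
      LinearMap.trace T H.ρ.V (H.ρ.ρ g) - H.π (anemicEval hNS u) ∈ maximalIdeal T ^ n := by
  -- the level
  obtain ⟨L₁, hL₁, h₁⟩ := exists_common_level (hJ.finite_torsion m)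
    fun x _ => hJ.smooth x
  obtain ⟨L₂, hL₂, h₂⟩ := FrobCompare.exists_charpolyConstantOn_of_isAdicContinuous H.ρ.ρ
    H.ρ.isAdicContinuous n (Ideal.Quotient.mk (maximalIdeal T ^ n)) Ideal.mk_ker.ge
  obtain ⟨L₃, hL₃, h₃⟩ := cyc_finite_level (p ^ m)
  obtain ⟨ℓ, hℓ, hℓS, A, φ, hA, hφ, ⟨k, hk⟩, -⟩ :=
    FrobDensity.frobenius_density (L₁ ⊔ L₂ ⊔ L₃) S g
  have hℓS' : ℓ ∉ (↑S : Set ℕ) := hℓS
  have hℓN : ¬ ℓ ∣ N := fun h => hℓS (hNS ℓ hℓ h)
  have hℓp : ¬ ℓ ∣ p := fun h => hℓS (by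
    rw [(Nat.prime_dvd_prime_iff_eq hℓ hp).mp h]; exact hpS)
  have hℓNp : ¬ ℓ ∣ N * p := fun h => ((Nat.Prime.dvd_mul hℓ).mp h).elim hℓN hℓp
  have hle₁ : L₁ ≤ L₁ ⊔ L₂ ⊔ L₃ := le_sup_left.trans le_sup_left
  have hle₂ : L₂ ≤ L₁ ⊔ L₂ ⊔ L₃ := le_sup_right.trans le_sup_left
  have hle₃ : L₃ ≤ L₁ ⊔ L₂ ⊔ L₃ := le_sup_right
  have hfix : ∀ x ∈ L₁ ⊔ L₂ ⊔ L₃, ((φ ^ k)⁻¹ * g) x = x := by
    intro x hx
    rw [AlgEquiv.mul_apply, hk x hx]
    exact (φ ^ k).symm_apply_apply x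
  -- `g` and `φ ^ k` act in the same way on `J[p^m]`
  have hact : ∀ x : J, p ^ m • x = 0 → g • x = φ ^ k • x := by
    intro x hx
    have := h₁ ((φ ^ k)⁻¹ * g) (fun y hy => hfix y (hle₁ hy)) x hx
    rw [mul_smul, inv_smul_eq_iff] at this
    exact this
  have hstab : ∀ x : J, p ^ m • x = 0 → ∀ g' : Γℚ, p ^ m • g' • x = 0 := by
    intro x hx g'
    rw [← smul_comm g' (p ^ m) x, hx, smul_zero]
  have hact' : ∀ x : J, p ^ m • x = 0 → g⁻¹ • x = (φ ^ k)⁻¹ • x := by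
    intro x hx
    rw [inv_smul_eq_iff, hact _ (hstab x hx _), smul_inv_smul]
  -- the cyclotomic character
  have hcyc : (cyc (p ^ m) g : ZMod (p ^ m)) = ((ℓ ^ k : ℕ) : ZMod (p ^ m)) := by
    have e1 : cyc (p ^ m) g = cyc (p ^ m) (φ ^ k) := by
      have := h₃ ((φ ^ k)⁻¹ * g) (fun y hy => hfix y (hle₃ hy))
      rw [map_mul, map_inv, inv_mul_eq_one] at this
      exact this.symm
    have e2 : ¬ ℓ ∣ p ^ m := fun h => hℓp (hℓ.dvd_of_dvd_pow h)
    rw [e1, map_pow, Units.val_pow_eq_pow_val, cyc_frobenius hℓ e2 A hA hφ, Nat.cast_pow]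
  let v : {ℓ : Nat.Primes // (ℓ : ℕ) ∉ S} := ⟨⟨ℓ, hℓ⟩, hℓS⟩
  have hincl : ∀ (t d : AnemicAlg S) (k : ℕ), anemicIncl S (powTrace t d k) =
      powTrace (anemicIncl S t) (anemicIncl S d) k :=
    FrobCompare.map_powTrace (anemicIncl S).toRingHom
  have heval : ∀ (t d : AnemicAlg S) (k : ℕ), anemicEval hNS (powTrace t d k) =
      powTrace (anemicEval hNS t) (anemicEval hNS d) k :=
    FrobCompare.map_powTrace (anemicEval hNS).toRingHom
  have hinclX : anemicIncl S (MvPolynomial.X v) = heckeGen v.1 := MvPolynomial.rename_X _ _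
  have hevalX : anemicEval hNS (MvPolynomial.X v) = heckeAlgebra.T hℓ hℓN hℓS' :=
    MvPolynomial.aeval_X _ _
  refine ⟨powTrace (MvPolynomial.X v) ((ℓ : ℕ) : AnemicAlg S) k, ?_, ?_⟩
  · intro x hx
    rw [hincl, hinclX, map_natCast,
      powTrace_smul {x : J | p ^ m • x = 0} φ (heckeGen v.1) ℓ hstab
        (fun y hy => hJ.frobenius ℓ hℓ hℓNp A hA φ hφ y ⟨m, hy⟩) k x hx, hact x hx, hact' x hx, hcyc,
      natCast_val_smul_eq _ (hstab x hx _)]
  · have hnt : Nontrivial T := inferInstance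
    have e3 := h₂ g (φ ^ k) fun x hx => hk x (hle₂ hx)
    have e4 := BN2.trace_eq_of_charpoly_map_eq H.ρ.finrank_eq H.ρ.finrank_eq _ _ _ _ e3
    rw [Ideal.Quotient.eq] at e4
    have e5 : LinearMap.trace T H.ρ.V (H.ρ.ρ (φ ^ k)) =
        H.π (anemicEval hNS (powTrace (MvPolynomial.X v) ((ℓ : ℕ) : AnemicAlg S) k)) := by
      have e6 := H.charpoly_frob ℓ hℓ hℓN hℓS' A hA φ hφ
      rw [BN2.charpoly_eq_of_finrank_two H.ρ.finrank_eq] at e6
      have e7 : LinearMap.trace T H.ρ.V (H.ρ.ρ φ) = H.π (heckeAlgebra.T hℓ hℓN hℓS') := by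
        have := congrArg (fun q => q.coeff 1) e6
        simpa [coeff_X, coeff_C] using this
      have e8 : LinearMap.det (H.ρ.ρ φ) = (ℓ : T) := by
        have := congrArg (fun q => q.coeff 0) e6
        simpa [coeff_X, coeff_C] using this
      rw [map_pow, FrobCompare.trace_pow_eq H.ρ.finrank_eq, e7, e8, heval,
        FrobCompare.map_powTrace, hevalX, map_natCast, map_natCast]
    rw [← e5]
    exact e4

/-- **S31** modulo the Jacobian input. -/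
theorem isUnramifiedAt_of_inp (hp : p.Prime)
    (hp𝒪 : (p : 𝒪) ∈ IsLocalRing.maximalIdeal 𝒪) (hpS : p ∈ S)
    (hNS : ∀ q : ℕ, q.Prime → q ∣ N → q ∈ S)
    (hJ : Inp p hNS J)
    (H : CuspForm.HeckeGaloisRepDatum N (↑S : Set ℕ) 𝒪 θ T)
    (q : ℕ) (hq : q.Prime) (hqS : q ∉ S) :
    H.ρ.IsUnramifiedAt q := by
  intro P hP σ hσ
  refine rho_eq_one_of_trace_eq H.ρ H.residual_absIrr σ fun τ => ?_
  rw [← sub_eq_zero]
  refine FrobCompare.eq_zero_of_forall_mem_pow fun n => ?_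
  have hqN : ¬ q ∣ N := fun h => hqS (hNS q hq h)
  have hqp : ¬ q ∣ p := fun h => hqS (by
    rw [(Nat.prime_dvd_prime_iff_eq hq hp).mp h]; exact hpS)
  have hqNp : ¬ q ∣ N * p := fun h => ((Nat.Prime.dvd_mul hq).mp h).elim hqN hqp
  obtain ⟨m, hm⟩ := hJ.ann n
  have : NeZero (p ^ m) := ⟨pow_ne_zero _ hp.ne_zero⟩
  obtain ⟨u, hu, hu'⟩ := exists_poly hp hpS hNS hJ H m n (σ * τ)
  obtain ⟨w, hw, hw'⟩ := exists_poly hp hpS hNS hJ H m n τ
  have hstab : ∀ x : J, p ^ m • x = 0 → ∀ g' : Γℚ, p ^ m • g' • x = 0 := by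
    intro x hx g'
    rw [← smul_comm g' (p ^ m) x, hx, smul_zero]
  have hσx : ∀ x : J, p ^ m • x = 0 → σ • x = x := fun x hx =>
    hJ.unramified q hq hqNp P hP σ hσ x ⟨m, hx⟩
  have hcyc : cyc (p ^ m) (σ * τ) = cyc (p ^ m) τ := by
    have e2 : ¬ q ∣ p ^ m := fun h => hqp (hq.dvd_of_dvd_pow h)
    rw [map_mul, cyc_inertia hq e2 P hP hσ, one_mul]
  obtain ⟨s, hs⟩ := hm (u - w) fun x hx => by
    have e1 : (σ * τ) • x = τ • x := by rw [mul_smul, hσx _ (hstab x hx _)]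
    have e2 : (σ * τ)⁻¹ • x = τ⁻¹ • x := by
      rw [mul_inv_rev, mul_smul]
      congr 1
      rw [inv_smul_eq_iff, hσx x hx]
    rw [map_sub, sub_smul, hu x hx, hw x hx, e1, e2, hcyc, sub_self]
  have hpT : (p : T) ∈ maximalIdeal T := by
    have := map_nonunit (algebraMap 𝒪 T) (p : 𝒪) hp𝒪
    rwa [map_natCast] at this
  have h3 : H.π (anemicEval hNS u) - H.π (anemicEval hNS w) ∈ maximalIdeal T ^ n := by
    rw [← map_sub, ← map_sub, hs, map_mul, map_pow, map_natCast]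
    exact Ideal.mul_mem_right _ _ (Ideal.pow_mem_pow hpT n)
  have h4 : LinearMap.trace T H.ρ.V (H.ρ.ρ (σ * τ)) - LinearMap.trace T H.ρ.V (H.ρ.ρ τ) =
      (LinearMap.trace T H.ρ.V (H.ρ.ρ (σ * τ)) - H.π (anemicEval hNS u)) +
      (H.π (anemicEval hNS u) - H.π (anemicEval hNS w)) -
      (LinearMap.trace T H.ρ.V (H.ρ.ρ τ) - H.π (anemicEval hNS w)) := by ring
  rw [h4]
  exact Ideal.sub_mem _ (Ideal.add_mem _ hu' h3) hw'

end Final

/-! ## From the inputs of team GAL -/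

section Wiring

open Fermat.Agent.GAL.Lattice Fermat.Agent.GAL.S29Anemic

/-- The annihilator comparison in the form used here, from `AnnInput`. -/
theorem ann_of_annInput {N p : ℕ} [NeZero N] {S : Finset ℕ} (hp : p.Prime)
    (h : AnnInput N p S) (hNS : ∀ q : ℕ, q.Prime → q ∣ N → q ∈ S) (n : ℕ) :
    ∃ m : ℕ, ∀ t : AnemicAlg S,
      (∀ x : JZero N, p ^ m • x = 0 → (letI := heckeModuleBar N; anemicIncl S t • x = 0)) →
        ∃ s : AnemicAlg S, anemicEval hNS t =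
          (p : CuspForm.heckeAlgebra N 2 (↑S : Set ℕ)) ^ n * anemicEval hNS s := by
  obtain ⟨r, c, hc, hr⟩ := h hNS
  refine ⟨n + r, fun t ht => ?_⟩
  obtain ⟨b, hb⟩ := hr n t ht
  have h1 : IsCoprime ((p : ℤ) ^ n) (c : ℤ) :=
    (Nat.isCoprime_iff_coprime.mpr ((Nat.Prime.coprime_iff_not_dvd hp).mpr hc)).pow_left
  obtain ⟨u, v, huv⟩ := h1
  have h2 : (u : CuspForm.heckeAlgebra N 2 (↑S : Set ℕ)) * (p : CuspForm.heckeAlgebra N 2
      (↑S : Set ℕ)) ^ n + (v : CuspForm.heckeAlgebra N 2 (↑S : Set ℕ)) *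
      (c : CuspForm.heckeAlgebra N 2 (↑S : Set ℕ)) = 1 := by
    have := congrArg (Int.cast : ℤ → CuspForm.heckeAlgebra N 2 (↑S : Set ℕ)) huv
    push_cast at this
    exact this
  refine ⟨(u : AnemicAlg S) * t + (v : AnemicAlg S) * b, ?_⟩
  rw [map_add, map_mul, map_mul, map_intCast, map_intCast]
  linear_combination (-(anemicEval hNS t)) * h2 + (v : CuspForm.heckeAlgebra N 2 (↑S : Set ℕ)) * hb

theorem s31_of_galInputs (HI : ∀ (N p : ℕ) [NeZero N], p.Prime → GalInputs N p)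
    {p : ℕ} {N : ℕ} [NeZero N] {S : Finset ℕ}
    {𝒪 : Type} [CommRing 𝒪] [IsDomain 𝒪] [IsDiscreteValuationRing 𝒪]
    [IsAdicComplete (IsLocalRing.maximalIdeal 𝒪) 𝒪]
    {θ : CuspForm.heckeAlgebra N 2 (↑S : Set ℕ) →+* IsLocalRing.ResidueField 𝒪}
    {T : Type} [CommRing T] [IsLocalRing T] [IsNoetherianRing T]
    [IsAdicComplete (IsLocalRing.maximalIdeal T) T] [Algebra 𝒪 T] [IsLocalHom (algebraMap 𝒪 T)]
    [Module.Finite 𝒪 T] [Module.Free 𝒪 T] (hp : p.Prime)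
    (hp𝒪 : (p : 𝒪) ∈ IsLocalRing.maximalIdeal 𝒪) (hpS : p ∈ S)
    (hNS : ∀ q : ℕ, q.Prime → q ∣ N → q ∈ S)
    (H : CuspForm.HeckeGaloisRepDatum N (↑S : Set ℕ) 𝒪 θ T)
    (q : ℕ) (hq : q.Prime) (hqS : q ∉ S) :
    H.ρ.IsUnramifiedAt q := by
  let _ := heckeModuleBar N
  have I := HI N p hp
  have : SMulCommClass Γℚ HeckeAlg (JZero N) := I.galois_hecke
  have hspec : SpecializationExists (K := ℚ) (L := Qbar) N p (JZero N) :=
    I.specialization I.galois_hecke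
  have hJ : Inp p hNS (JZero N) :=
    { smooth := I.smooth
      unramified := S30Wiring.unramifiedOutside_of_specialization hspec
      frobenius := S30Wiring.frobeniusQuadratic_of_specialization hspec
      finite_torsion := I.finite
      ann := ann_of_annInput hp ((I.lattice S).annInput hp) hNS }
  exact isUnramifiedAt_of_inp hp hp𝒪 hpS hNS hJ H q hq hqS

end Wiring

end Fermat.Agent.S31Lib
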