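import Fermat.Agent.BrauerNesbittGalois

/-!
# Residually absolutely irreducible representations: the image spans, and the trace detects
-/

set_option autoImplicit false

open IsLocalRing
open scoped TensorProduct

namespace Fermat.Agent.S31Lib

local notation "Γℚ" => (AlgebraicClosure ℚ ≃ₐ[ℚ] AlgebraicClosure ℚ)

section LinearAlgebra

variable {T V : Type*} [CommRing T] [AddCommGroup V] [Module T V] [Module.Free T V]
  [Module.Finite T V]

/-- The trace form on endomorphisms of a finite free module is nondegenerate. -/
theorem eq_zero_of_trace_mul_eq_zero (f : Module.End T V)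
    (h : ∀ g : Module.End T V, LinearMap.trace T V (f * g) = 0) : f = 0 := by
  classical
  let b := Module.Free.chooseBasis T V
  apply (LinearMap.toMatrix b b).injective
  rw [map_zero]
  ext i j
  have h1 := h (Matrix.toLin b b (Matrix.single j i 1))
  rw [LinearMap.trace_eq_matrix_trace T b, LinearMap.toMatrix_mul, LinearMap.toMatrix_toLin,
    Matrix.trace_mul_comm] at h1
  simpa [Matrix.trace_single_mul] using h1

variable [IsLocalRing T]

/-- An endomorphism whose reduction vanishes is in `𝔪 • End V`. -/
theorem mem_smul_top_of_baseChange_eq_zero (f : Module.End T V)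
    (h : f.baseChange (ResidueField T) = 0) :
    f ∈ maximalIdeal T • (⊤ : Submodule T (Module.End T V)) := by
  classical
  let b := Module.Free.chooseBasis T V
  have hent : ∀ i j, LinearMap.toMatrix b b f i j ∈ maximalIdeal T := by
    intro i j
    have h1 : LinearMap.toMatrix (Algebra.TensorProduct.basis (ResidueField T) b)
      (Algebra.TensorProduct.basis (ResidueField T) b)
      (f.baseChange (ResidueField T)) = 0 := by rw [h]; simp
    rw [LinearMap.toMatrix_baseChange] at h1
    have h2 := congrFun (congrFun h1 i) j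
    exact (residue_eq_zero_iff _).mp h2
  have h2 : f = ∑ i, ∑ j, LinearMap.toMatrix b b f i j • Matrix.toLin b b (Matrix.single i j 1) := by
    apply (LinearMap.toMatrix b b).injective
    simp only [map_sum, map_smul, LinearMap.toMatrix_toLin]
    conv_lhs => rw [Matrix.matrix_eq_sum_single (LinearMap.toMatrix b b f)]
    refine Finset.sum_congr rfl fun i _ => Finset.sum_congr rfl fun j _ => ?_
    rw [Matrix.smul_single, smul_eq_mul, mul_one]
  rw [h2]
  exact Submodule.sum_mem _ fun i _ => Submodule.sum_mem _ fun j _ =>
    Submodule.smul_mem_smul (hent i j) Submodule.mem_top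

/-- **Burnside + Nakayama**. -/
theorem span_range_eq_top_of_residual {G : Type*} [Monoid G] (ρ : G →* Module.End T V)
    (h : Submodule.span (ResidueField T) (Set.range fun g => (ρ g).baseChange (ResidueField T)) = ⊤) :
    Submodule.span T (Set.range ρ) = ⊤ := by
  set M := Submodule.span T (Set.range ρ)
  have key : ∀ f : Module.End (ResidueField T) (ResidueField T ⊗[T] V),
      f ∈ Submodule.span (ResidueField T) (Set.range fun g => (ρ g).baseChange (ResidueField T)) →
      ∃ m ∈ M, LinearMap.baseChange (ResidueField T) m = f := by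
    intro f hf
    induction hf using Submodule.span_induction with
    | mem f hf =>
      obtain ⟨g, rfl⟩ := hf
      exact ⟨ρ g, Submodule.subset_span ⟨g, rfl⟩, rfl⟩
    | zero => exact ⟨0, M.zero_mem, LinearMap.baseChange_zero⟩
    | add f f' _ _ hf hf' =>
      obtain ⟨m, hm, rfl⟩ := hf
      obtain ⟨m', hm', rfl⟩ := hf'
      exact ⟨m + m', M.add_mem hm hm', LinearMap.baseChange_add _ _⟩
    | smul c f _ hf =>
      obtain ⟨m, hm, rfl⟩ := hf
      obtain ⟨c, rfl⟩ := residue_surjective c
      refine ⟨c • m, M.smul_mem c hm, ?_⟩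
      ext v
      simp only [TensorProduct.AlgebraTensorModule.curry_apply, TensorProduct.curry_apply,
        LinearMap.coe_restrictScalars, LinearMap.baseChange_tmul,
        LinearMap.smul_apply, TensorProduct.tmul_smul]
      rw [← ResidueField.algebraMap_eq, algebraMap_smul]
  have h1 : (⊤ : Submodule T (Module.End T V)) ≤ M ⊔ maximalIdeal T • ⊤ := by
    intro f _
    obtain ⟨m, hm, hmf⟩ := key (f.baseChange (ResidueField T)) (by rw [h]; trivial)
    have h2 : (f - m).baseChange (ResidueField T) = 0 := by
      rw [LinearMap.baseChange_sub]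
      exact sub_eq_zero_of_eq hmf.symm
    have h3 := mem_smul_top_of_baseChange_eq_zero _ h2
    rw [Submodule.mem_sup]
    exact ⟨m, hm, f - m, h3, by abel⟩
  exact top_le_iff.mp (Submodule.le_of_le_smul_of_le_jacobson_bot Module.Finite.fg_top
    (maximalIdeal_le_jacobson _) h1)

/-- If the trace of `ρ` is invariant under left translation by `σ`, then `ρ σ = 1`. -/
theorem eq_one_of_trace_eq {G : Type*} [Group G] (ρ : G →* Module.End T V)
    (h : Submodule.span (ResidueField T) (Set.range fun g => (ρ g).baseChange (ResidueField T)) = ⊤)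
    (σ : G) (hσ : ∀ τ, LinearMap.trace T V (ρ (σ * τ)) = LinearMap.trace T V (ρ τ)) : ρ σ = 1 := by
  have hspan := span_range_eq_top_of_residual ρ h
  rw [← sub_eq_zero]
  apply eq_zero_of_trace_mul_eq_zero
  intro g
  have hg : g ∈ Submodule.span T (Set.range ρ) := by rw [hspan]; trivial
  induction hg using Submodule.span_induction with
  | mem f hf =>
    obtain ⟨τ, rfl⟩ := hf
    rw [sub_mul, one_mul, ← map_mul, map_sub, hσ, sub_self]
  | zero => rw [mul_zero, map_zero]
  | add f f' _ _ hf hf' => rw [mul_add, map_add, hf, hf', add_zero]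
  | smul c f _ hf => rw [mul_smul_comm, map_smul, hf, smul_zero]

end LinearAlgebra

/-- Galois version. -/
theorem rho_eq_one_of_trace_eq {A : Type} [CommRing A] [IsLocalRing A] (ρ : GaloisRepAdic A)
    (h : ρ.residual.IsAbsolutelyIrreducible) (σ : Γℚ)
    (hσ : ∀ τ, LinearMap.trace A ρ.V (ρ.ρ (σ * τ)) = LinearMap.trace A ρ.V (ρ.ρ τ)) : ρ.ρ σ = 1 :=
  eq_one_of_trace_eq ρ.ρ ((BN2.isAbsolutelyIrreducible_iff_span _).mp h) σ hσ

end Fermat.Agent.S31Lib
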