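import Fermat.Agent.S31Lib.TraceForm
import Fermat.Agent.FrobCompare
import Fermat.Agent.FrobeniusDensity
import Fermat.Agent.Lib.Cyclotomic
import Fermat.Agent.GAL.Inputs
import Fermat.Prelude.Def_CuspForm_HeckeGaloisRepDatum

/-!
# S31: the Hecke Galois representation is unramified outside `S`

The reduction of S31 to the Jacobian input `GAL.GalInput N p J`.
-/

set_option autoImplicit false

noncomputable section

open ModularCurve IsLocalRing Polynomial

namespace Fermat.Agent.S31Lib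

local notation "Qbar" => AlgebraicClosure ℚ
local notation "Γℚ" => (AlgebraicClosure ℚ ≃ₐ[ℚ] AlgebraicClosure ℚ)

open FrobCompare (powTrace)

/-! ## Finiteness and levels of torsion -/

section Levels

variable {J : Type*} [AddCommGroup J]

theorem finite_pow_torsion {p : ℕ} (h : Finite {x : J // p • x = 0}) (m : ℕ) :
    {x : J | p ^ m • x = 0}.Finite := by
  induction m with
  | zero => simp
  | succ m ih =>
    have h0 : {x : J | p • x = 0}.Finite := h
    have hfib : ∀ y : J, {x : J | p • x = y}.Finite := by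
      intro y
      rcases Set.eq_empty_or_nonempty {x : J | p • x = y} with he | ⟨x₀, hx₀⟩
      · rw [he]; exact Set.finite_empty
      · refine (h0.image (fun x => x₀ + x)).subset ?_
        intro x hx
        refine ⟨x - x₀, ?_, add_sub_cancel x₀ x⟩
        change p • (x - x₀) = 0
        rw [smul_sub, show p • x = y from hx, show p • x₀ = y from hx₀, sub_self]
    refine (ih.biUnion fun y _ => hfib y).subset ?_
    intro x hx
    refine Set.mem_biUnion (x := p • x) ?_ rfl
    change p ^ m • p • x = 0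
    rw [← mul_smul, ← pow_succ]
    exact hx

/-- A finite set of points with finite levels has a common finite level. -/
theorem exists_common_level [DistribMulAction Γℚ J] {X : Set J} (hX : X.Finite)
    (hs : ∀ x ∈ X, ∃ L : IntermediateField ℚ Qbar, FiniteDimensional ℚ L ∧
      ∀ g : Γℚ, (∀ y ∈ L, g y = y) → g • x = x) :
    ∃ L : IntermediateField ℚ Qbar, FiniteDimensional ℚ L ∧
      ∀ g : Γℚ, (∀ y ∈ L, g y = y) → ∀ x ∈ X, g • x = x := by
  induction X, hX using Set.Finite.induction_on with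
  | empty => exact ⟨⊥, inferInstance, fun g _ x hx => absurd hx (Set.notMem_empty x)⟩
  | @insert a X _ _ ih =>
    obtain ⟨L, hL, h⟩ := ih fun x hx => hs x (Set.mem_insert_of_mem _ hx)
    obtain ⟨L', hL', h'⟩ := hs a (Set.mem_insert _ _)
    refine ⟨L ⊔ L', inferInstance, fun g hg x hx => ?_⟩
    rcases hx with rfl | hx
    · exact h' g fun y hy => hg y ((le_sup_right : L' ≤ L ⊔ L') hy)
    · exact h g (fun y hy => hg y ((le_sup_left : L ≤ L ⊔ L') hy)) x hx

end Levels

/-! ## Powers of Frobenius acting on torsion -/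

section Power

variable {J R G : Type*} [CommRing R] [AddCommGroup J] [Module R J] [Group G] [DistribMulAction G J]

/-- If `φ² - tφ + d = 0` on a `φ`-stable set of points, then the sequence `powTrace t d k` acts as
`φ^k + d^k φ^{-k}`. -/
theorem powTrace_smul (X : Set J) (φ : G) (t : R) (d : ℕ) (hXs : ∀ x ∈ X, ∀ g : G, g • x ∈ X)
    (h : ∀ x ∈ X, φ • φ • x - t • (φ • x) + d • x = 0) (k : ℕ) :
    ∀ x ∈ X, powTrace t (d : R) k • x = φ ^ k • x + d ^ k • (φ ^ k)⁻¹ • x := by
  have h1 : ∀ x ∈ X, t • x = φ • x + d • φ⁻¹ • x := by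
    intro x hx
    have h2 := h (φ⁻¹ • x) (hXs x hx _)
    rw [smul_inv_smul] at h2
    rw [← sub_eq_zero, ← neg_eq_zero, ← h2]
    abel
  induction k using Nat.twoStepInduction with
  | zero =>
    intro x hx
    simp only [powTrace, pow_zero, one_smul, inv_one]
    rw [show (2 : R) = 1 + 1 by norm_num, add_smul, one_smul]
  | one => intro x hx; simp only [powTrace, pow_one]; exact h1 x hx
  | more k ih1 ih2 =>
    intro x hx
    rw [powTrace, sub_smul, mul_smul, mul_smul, ih1 x hx, ih2 x hx, smul_add t, smul_add (d : R),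
      smul_comm t (d ^ (k + 1)), h1 _ (hXs x hx _), h1 _ (hXs x hx _)]
    have e1 : φ • φ ^ (k + 1) • x = φ ^ (k + 2) • x := by rw [← mul_smul, ← pow_succ']
    have e2 : φ⁻¹ • φ ^ (k + 1) • x = φ ^ k • x := by
      rw [← mul_smul, pow_succ', ← mul_assoc, inv_mul_cancel, one_mul]
    have e3 : φ • (φ ^ (k + 1))⁻¹ • x = (φ ^ k)⁻¹ • x := by
      rw [← mul_smul, pow_succ, mul_inv_rev, ← mul_assoc, mul_inv_cancel, one_mul]
    have e4 : φ⁻¹ • (φ ^ (k + 1))⁻¹ • x = (φ ^ (k + 2))⁻¹ • x := by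
      rw [← mul_smul, ← mul_inv_rev, ← pow_succ]
    rw [e1, e2, e3, e4, Nat.cast_smul_eq_nsmul, Nat.cast_smul_eq_nsmul, smul_add, ← mul_smul,
      ← mul_smul, ← pow_succ, ← pow_succ']
    abel

end Power

/-! ## The Hecke algebra away from `S` as a quotient of a polynomial ring -/

section Poly

open CuspForm

/-- The polynomial ring on the Hecke operators `T_ℓ`, `ℓ ∉ S`. -/
abbrev PolyS (S : Set ℕ) := MvPolynomial {ℓ : Nat.Primes // (ℓ : ℕ) ∉ S} ℤ

variable (N : ℕ) [NeZero N] (k : ℤ) (S : Set ℕ)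

/-- The generators of the Hecke algebra. -/
def genS (ℓ : {ℓ : Nat.Primes // (ℓ : ℕ) ∉ S}) : heckeAlgebra N k S :=
  if h : ((ℓ : Nat.Primes) : ℕ) ∣ N then heckeAlgebra.U ℓ.1.2 h ℓ.2 else heckeAlgebra.T ℓ.1.2 h ℓ.2

/-- Evaluation of polynomials in the Hecke operators. -/
def evS : PolyS S →+* heckeAlgebra N k S := (MvPolynomial.aeval (genS N k S)).toRingHom

theorem evS_X (ℓ : {ℓ : Nat.Primes // (ℓ : ℕ) ∉ S}) :
    evS N k S (MvPolynomial.X ℓ) = genS N k S ℓ :=
  MvPolynomial.aeval_X _ _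

theorem evS_C (a : ℤ) : evS N k S (MvPolynomial.C a) = algebraMap ℤ _ a :=
  MvPolynomial.aeval_C _ _

/-- The inclusion of `PolyS S` in the full abstract Hecke algebra. -/
def incS : PolyS S →+* HeckeAlg := (MvPolynomial.rename Subtype.val).toRingHom

theorem incS_X (ℓ : {ℓ : Nat.Primes // (ℓ : ℕ) ∉ S}) :
    incS S (MvPolynomial.X ℓ) = heckeGen ℓ.1 :=
  MvPolynomial.rename_X _ _

theorem incS_C (a : ℤ) : incS S (MvPolynomial.C a) = MvPolynomial.C a :=
  MvPolynomial.rename_C _ _

theorem coe_add_heckeAlgebra (a b : heckeAlgebra N k S) : ((a + b : heckeAlgebra N k S) :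
    Module.End ℂ (CuspForm (CongruenceSubgroup.Gamma0 N) k)) = a + b := rfl

theorem coe_mul_heckeAlgebra (a b : heckeAlgebra N k S) : ((a * b : heckeAlgebra N k S) :
    Module.End ℂ (CuspForm (CongruenceSubgroup.Gamma0 N) k)) = a * b := rfl

theorem coe_algebraMap_heckeAlgebra (a : ℤ) :
    ((algebraMap ℤ (heckeAlgebra N k S) a : heckeAlgebra N k S) :
      Module.End ℂ (CuspForm (CongruenceSubgroup.Gamma0 N) k)) = algebraMap ℤ _ a := rfl

theorem coe_zero_heckeAlgebra : ((0 : heckeAlgebra N k S) :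
    Module.End ℂ (CuspForm (CongruenceSubgroup.Gamma0 N) k)) = 0 := rfl

theorem coe_heckeFormsGen (ℓ : {ℓ : Nat.Primes // (ℓ : ℕ) ∉ S}) :
    ((heckeFormsGen N k ℓ.1 : heckeAlgebra N k ∅) :
      Module.End ℂ (CuspForm (CongruenceSubgroup.Gamma0 N) k)) =
      (genS N k S ℓ : heckeAlgebra N k S) := by
  rw [heckeFormsGen, genS]
  by_cases h : ((ℓ : Nat.Primes) : ℕ) ∣ N
  · rw [dif_pos h, dif_pos h, heckeAlgebra.coe_U, heckeAlgebra.coe_U]
  · rw [dif_neg h, dif_neg h, heckeAlgebra.coe_T, heckeAlgebra.coe_T]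

theorem coe_heckeEvalForms_incS (t : PolyS S) :
    ((heckeEvalForms N k (incS S t) : heckeAlgebra N k ∅) :
      Module.End ℂ (CuspForm (CongruenceSubgroup.Gamma0 N) k)) =
      (evS N k S t : heckeAlgebra N k S) := by
  induction t using MvPolynomial.induction_on with
  | C a =>
    rw [incS_C, heckeEvalForms_C, evS_C, coe_algebraMap_heckeAlgebra, coe_algebraMap_heckeAlgebra]
  | add p q hp hq =>
    rw [map_add, map_add, map_add, coe_add_heckeAlgebra, coe_add_heckeAlgebra, hp, hq]
  | mul_X p ℓ hp =>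
    rw [map_mul, map_mul, map_mul, incS_X, evS_X, coe_mul_heckeAlgebra, coe_mul_heckeAlgebra, hp,
      heckeEvalForms_heckeGen, coe_heckeFormsGen]

end Poly

/-! ## Comparing annihilators modulo powers of `p` -/

section Annihilator

/-- An endomorphism of a finite free abelian group all of whose values are divisible by `c` is
divisible by `c`. -/
theorem exists_eq_smul_of_forall {H : Type*} [AddCommGroup H] [Module.Free ℤ H] [Module.Finite ℤ H]
    (f : Module.End ℤ H) (c : ℤ) (h : ∀ x, ∃ y, f x = c • y) : ∃ g : Module.End ℤ H, f = c • g := by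
  classical
  let b := Module.Free.chooseBasis ℤ H
  choose y hy using h
  refine ⟨b.constr ℤ fun i => y (b i), b.ext fun i => ?_⟩
  rw [LinearMap.smul_apply, Module.Basis.constr_basis, hy]

/-- Artin–Rees: elements of `R` acting on `H` through `p^m End H` act through `p^n R`. -/
theorem exists_pow_comparison {R H : Type*} [CommRing R] [AddCommGroup H] [Module R H]
    [Module.Free ℤ H] [Module.Finite ℤ H] (p n : ℕ) :
    ∃ m : ℕ, ∀ t : R, (∀ x : H, ∃ y : H, t • x = p ^ m • y) →
      ∃ s : R, ∀ x : H, t • x = p ^ n • s • x := by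
  let F : R →+* Module.End ℤ H := Module.toModuleEnd ℤ (S := R) H
  let M : Submodule ℤ (Module.End ℤ H) := LinearMap.range F.toIntAlgHom.toLinearMap
  obtain ⟨k, hk⟩ := Ideal.exists_pow_inf_eq_pow_smul (Ideal.span {(p : ℤ)}) M
  refine ⟨n + k, fun t ht => ?_⟩
  have h1 : ∃ g : Module.End ℤ H, F t = ((p : ℤ) ^ (n + k)) • g := by
    refine exists_eq_smul_of_forall _ _ fun x => ?_
    obtain ⟨y, hy⟩ := ht x
    refine ⟨y, ?_⟩
    change t • x = _
    rw [hy]
    norm_cast
  obtain ⟨g, hg⟩ := h1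
  have h2 : F t ∈ (Ideal.span {(p : ℤ)}) ^ (n + k) • (⊤ : Submodule ℤ (Module.End ℤ H)) ⊓ M := by
    refine ⟨?_, ⟨t, rfl⟩⟩
    rw [hg, Ideal.span_singleton_pow]
    exact Submodule.smul_mem_smul (Ideal.mem_span_singleton_self _) Submodule.mem_top
  rw [hk _ (Nat.le_add_left k n), Nat.add_sub_cancel, Ideal.span_singleton_pow] at h2
  have h3 : ∃ s : R, F t = (p : ℤ) ^ n • F s := by
    refine Submodule.smul_induction_on h2 (fun a ha w hw => ?_) (fun x y hx hy => ?_)
    · obtain ⟨c, rfl⟩ := Ideal.mem_span_singleton.mp ha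
      obtain ⟨s, rfl⟩ := hw.2
      refine ⟨c • s, ?_⟩
      rw [map_zsmul, mul_smul]
      rfl
    · obtain ⟨s, rfl⟩ := hx
      obtain ⟨s', rfl⟩ := hy
      exact ⟨s + s', by rw [map_add, smul_add]⟩
  obtain ⟨s, hs⟩ := h3
  refine ⟨s, fun x => ?_⟩
  have h4 := LinearMap.congr_fun hs x
  change t • x = (p : ℤ) ^ n • s • x at h4
  rw [h4]
  norm_cast

end Annihilator

section Support

open CuspForm

variable {N p : ℕ} [NeZero N] {J : Type} [AddCommGroup J] [Module HeckeAlg J]

theorem exists_annihilator_comparison (h : GAL.SupportInput N p J) (S : Set ℕ) (n : ℕ) :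
    ∃ m : ℕ, ∀ t : PolyS S, (∀ x : J, p ^ m • x = 0 → incS S t • x = 0) →
      ∃ s : PolyS S, evS N 2 S t = (p : heckeAlgebra N 2 S) ^ n * evS N 2 S s := by
  obtain ⟨H, iH1, iH2, iH3, iH4, Φ, hH, hΦ, hΦp⟩ := h
  let iM : Module (PolyS S) H := Module.compHom H (incS S)
  have hsmul : ∀ (t : PolyS S) (x : H), t • x = incS S t • x := fun t x => rfl
  obtain ⟨m, hm⟩ := exists_pow_comparison (R := PolyS S) (H := H) p n
  have htors : ∀ (k : ℕ) (x : H), p ^ k • Φ k x = 0 := by
    intro k x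
    induction k with
    | zero =>
      rw [pow_zero, one_smul, hΦ]
      exact ⟨x, by rw [pow_zero, one_smul]⟩
    | succ k ih => rw [pow_succ, mul_smul, hΦp, ih]
  refine ⟨m, fun t ht => ?_⟩
  obtain ⟨s, hs⟩ := hm t fun x => by
    rw [hsmul, ← hΦ, map_smul]
    exact ht _ (htors m x)
  refine ⟨s, ?_⟩
  have h1 : heckeEvalForms N 2 (incS S t - (p : HeckeAlg) ^ n * incS S s) = 0 := by
    refine hH _ fun x => ?_
    have h2 := hs x
    rw [hsmul, hsmul] at h2
    rw [sub_smul, h2, mul_smul, ← Nat.cast_pow, Nat.cast_smul_eq_nsmul, sub_self]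
  have h3 : incS S t - (p : HeckeAlg) ^ n * incS S s = incS S (t - (p : PolyS S) ^ n * s) := by
    rw [map_sub, map_mul, map_pow, map_natCast]
  rw [h3] at h1
  have h4 := coe_heckeEvalForms_incS N 2 S (t - (p : PolyS S) ^ n * s)
  rw [h1, coe_zero_heckeAlgebra] at h4
  have h5 : evS N 2 S (t - (p : PolyS S) ^ n * s) = 0 := by
    apply Subtype.ext
    rw [← h4, coe_zero_heckeAlgebra]
  rw [map_sub, map_mul, map_pow, map_natCast, sub_eq_zero] at h5
  exact h5

end Support

end Fermat.Agent.S31Lib
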